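import Fermat.Agent.LevelRaising.Operators
import Fermat.Agent.RT.GammaH.Action

/-!
# Degeneracy maps between `Γ_H` of level `M` and `M q`

For `q ∤ M` prime and `K' = K` pulled back to level `M q`: restriction `resDeg`, conjugation by
`diag(q, 1)` `conjDeg`, corestriction `corDeg` and the transpose `starDeg` of `conjDeg`. The
composites are `(q + 1, T_q ⟨q⁻¹⟩; T_q, q + 1)`, and all four commute with the Hecke operators
away from `M q`, the diamond operators and corestriction to `Γ₀`.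
-/

set_option autoImplicit false

noncomputable section

namespace Fermat.Agent.RT.Ihara

open CongruenceSubgroup Matrix.SpecialLinearGroup
open Fermat.Agent.RT.GammaH
open Fermat.Agent.LevelRaising (RaiseData bezQ bezN)
open scoped MatrixGroups

variable {M q : ℕ}

/-- The pull back of `K` to level `M q`. -/
def liftSub (q : ℕ) (K : Subgroup (ZMod M)ˣ) : Subgroup (ZMod (M * q))ˣ :=
  K.comap (ZMod.unitsMap (dvd_mul_right M q))

theorem liftSub_top : liftSub q (⊤ : Subgroup (ZMod M)ˣ) = ⊤ := Subgroup.comap_top _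

variable {K : Subgroup (ZMod M)ˣ}

theorem gammaH_lift_le : gammaH (M * q) (liftSub q K) ≤ gammaH M K :=
  gammaH_le_of_dvd (dvd_mul_right M q) le_rfl

theorem dvd_of_mem_lift {g : SL(2, ℤ)} (hg : g ∈ gammaH (M * q) (liftSub q K)) :
    (q : ℤ) ∣ g 1 0 :=
  (Int.natCast_dvd_natCast.2 (dvd_mul_left q M)).trans
    ((ZMod.intCast_zmod_eq_zero_iff_dvd _ _).1 hg.1)

variable (h : RaiseData q M)

include h in
theorem fact_prime : Fact q.Prime := ⟨h.prime⟩

include h in
theorem mem_lift {g : SL(2, ℤ)} (hg : g ∈ gammaH M K) (hq : (q : ℤ) ∣ g 1 0) :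
    g ∈ gammaH (M * q) (liftSub q K) := by
  obtain ⟨hc, u, hu, ha⟩ := hg
  have hMq : ((g 1 0 : ℤ) : ZMod (M * q)) = 0 := by
    rw [ZMod.intCast_zmod_eq_zero_iff_dvd]
    push_cast
    exact h.isCoprime.symm.mul_dvd ((ZMod.intCast_zmod_eq_zero_iff_dvd _ _).1 hc) hq
  have hd : (g 0 0 : ZMod (M * q)) * g 1 1 - g 0 1 * g 1 0 = 1 := by
    exact_mod_cast congrArg (Int.cast : ℤ → ZMod (M * q)) (Gamma0.det_eq g)
  rw [hMq, mul_zero, sub_zero] at hd
  refine ⟨hMq, Units.mkOfMulEqOne _ _ hd, ?_, rfl⟩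
  show ZMod.unitsMap (dvd_mul_right M q) _ ∈ K
  convert hu
  refine Units.ext ?_
  rw [← ha]
  exact map_intCast (ZMod.castHom (dvd_mul_right M q) (ZMod M)) _

/-- Representatives of `Γ_H(M q) \ Γ_H(M)`. -/
def cSL : Option (Fin q) → SL(2, ℤ)
  | none => ⟨!![1, 1; -(bezN q M * M), bezQ q M * q], by
      rw [Matrix.det_fin_two_of]; linear_combination h.bez⟩
  | some x => ⟨!![1, 0; (M : ℤ) * (x : ℕ), 1], by simp [Matrix.det_fin_two_of]⟩

/-- The same, in `GL(2, ℝ)`. -/
def cRep (i : Option (Fin q)) : GLR := mapGL ℝ (cSL h i)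

/-- An element of `Γ₀(M)` making up the Atkin–Lehner matrix. -/
def wSL : SL(2, ℤ) :=
  ⟨!![bezQ q M, -bezN q M; (M : ℤ), (q : ℤ)], by
    rw [Matrix.det_fin_two_of]; linear_combination h.bez⟩

/-- Representatives of the correspondence transpose to `diag(q, 1)`. -/
def sRep : Option (Fin q) → GLR
  | none => mapGL ℝ (wSL h) * ModularForm.heckeDiagMatrix q
  | some x => ModularForm.heckeMatrix q x

/-- `diag(q, 1)`. -/
def aRep (q : ℕ) : Unit → GLR := fun _ => ModularForm.heckeDiagMatrix q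

theorem cSL_mem (i : Option (Fin q)) : cSL h i ∈ gammaH M K := by
  rcases i with _ | x <;> refine ⟨?_, 1, one_mem K, ?_⟩ <;> simp [cSL]

theorem wSL_mem : wSL h ∈ Gamma0 M := Gamma0_mem.2 (by simp [wSL])

/-- The last representative of the transposed correspondence is integral. -/
theorem isIntMat_sRep_none :
    IsIntMat (sRep h none) !![bezQ q M * q, -bezN q M; (M : ℤ) * q, (q : ℤ)] := by
  have := fact_prime h
  have h' := (isIntMat_mapGL (wSL h)).mul (isIntMat_heckeDiagMatrix (n := q))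
  rw [show (!![bezQ q M * q, -bezN q M; (M : ℤ) * q, (q : ℤ)] : Matrix (Fin 2) (Fin 2) ℤ) =
    (wSL h : Matrix (Fin 2) (Fin 2) ℤ) * !![(q : ℤ), 0; 0, 1] by
      ext a b
      fin_cases a <;> fin_cases b <;> simp [wSL, Matrix.mul_apply, Fin.sum_univ_two]]
  exact h'

theorem isIntMat_sRep_some (x : Fin q) :
    IsIntMat (sRep h (some x)) !![1, ((x : ℕ) : ℤ); 0, (q : ℤ)] :=
  have := fact_prime h
  isIntMat_heckeMatrix _

include h in
theorem isIntMat_aRep : IsIntMat (aRep q ()) !![(q : ℤ), 0; 0, 1] :=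
  have := fact_prime h
  isIntMat_heckeDiagMatrix

/-- The set of `diag(q, 1)` transposed. -/
def starSet (M q : ℕ) (K : Subgroup (ZMod M)ˣ) (n : ℕ) : Set GLR :=
  {g | g ∈ heckeSet M K (q * n) ∧ ∀ A, IsIntMat g A → (q : ℤ) ∣ A 1 0 ∧ (q : ℤ) ∣ A 1 1}

/-- The representatives lie in the set of the transposed correspondence. -/
theorem sRep_mem (i : Option (Fin q)) : sRep h i ∈ starSet M q K 1 := by
  rcases i with _ | x
  · refine ⟨⟨_, isIntMat_sRep_none h, ?_, ?_, 1, one_mem K, ?_⟩, fun A hA => ?_⟩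
    · rw [Matrix.det_fin_two_of, mul_one]; linear_combination (q : ℤ) * h.bez
    · simp
    · have := congrArg (Int.cast : ℤ → ZMod M) h.bez
      simpa using this
    · rw [hA.unique (isIntMat_sRep_none h)]; simp
  · refine ⟨⟨_, isIntMat_sRep_some h x, by simp [Matrix.det_fin_two_of], by simp, 1, one_mem K,
      by simp⟩, fun A hA => ?_⟩
    rw [hA.unique (isIntMat_sRep_some h x)]; simp

theorem isReps_sRep_top : IsReps (gammaH M K) (heckeSet M K q) (sRep h) := by
  have := fact_prime h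
  let e : Option (Fin q) ≃ HIdx M q := (Equiv.subtypeUnivEquiv fun _ _ => h.not_dvd).symm
  have he : ∀ i, sRep h i * (hRep M q (e i))⁻¹ ∈ img (gammaH M K) := by
    rintro (_ | x)
    · show mapGL ℝ (wSL h) * ModularForm.heckeDiagMatrix q *
        (mapGL ℝ _ * ModularForm.heckeDiagMatrix q)⁻¹ ∈ _
      rw [mul_inv_rev, ← mul_assoc, mul_inv_cancel_right, ← map_inv, ← map_mul]
      refine mapGL_mem_img.2 (gamma0_mul_inv_mem (wSL_mem h) (gamma0Elt_mem _) (one_mem K) ?_)
      rw [gamma0Elt_upperLeft, Units.val_one, one_mul]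
      refine (Units.inv_eq_of_mul_eq_one_right ?_).symm
      have := congrArg (Int.cast : ℤ → ZMod M) h.bez
      rw [ZMod.coe_unitOfCoprime, mul_comm]
      simpa [wSL] using this
    · show ModularForm.heckeMatrix q x * (ModularForm.heckeMatrix q (x : ℕ))⁻¹ ∈ _
      simp
  refine (isReps_hRep (n := q)).of_card (fun i => ?_) (fun i j hij => e.injective ?_)
    (le_of_eq (Nat.card_congr e.symm))
  · simpa using (sRep_mem h (K := K) i).1
  · refine (isReps_hRep (n := q) (K := K)).inj _ _ ?_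
    have := mul_mem (mul_mem (inv_mem (he i)) hij) (he j)
    simpa [mul_assoc] using this

theorem starSet_one_of_factor {γ : SL(2, ℤ)} (i : Option (Fin q))
    (hg : mapGL ℝ γ * sRep h i ∈ starSet M q K 1) : (q : ℤ) ∣ γ 1 0 := by
  rcases i with _ | x
  · have := (hg.2 _ ((isIntMat_mapGL γ).mul (isIntMat_sRep_none h))).2
    simp only [Matrix.mul_apply, Matrix.of_apply, Matrix.cons_val', Matrix.cons_val_one,
      Matrix.cons_val_fin_one, Fin.sum_univ_two, Matrix.cons_val_zero, mul_neg,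
      Int.dvd_add_mul_self, dvd_neg] at this
    refine (h.prime_int.dvd_or_dvd this).resolve_right fun hv => ?_
    obtain ⟨w, hw⟩ := hv
    exact h.prime_int.not_dvd_one ⟨bezQ q M + w * M, by rw [← h.bez, hw]; ring⟩
  · have := (hg.2 _ ((isIntMat_mapGL γ).mul (isIntMat_sRep_some h x))).1
    simpa [Matrix.mul_apply, Fin.sum_univ_two] using this

/-- The representatives form a complete system for the transposed correspondence. -/
theorem isReps_sRep : IsReps (gammaH (M * q) (liftSub q K)) (starSet M q K 1) (sRep h) where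
  mem := sRep_mem h
  inj i j hij := (isReps_sRep_top h (K := K)).inj i j (img_mono gammaH_lift_le hij)
  surj g hg := by
    obtain ⟨i, γ, hγ, he⟩ := (isReps_sRep_top h (K := K)).surj g (by simpa using hg.1)
    have hgi : g = mapGL ℝ γ * sRep h i := by rw [he, inv_mul_cancel_right]
    exact ⟨i, γ, mem_lift h hγ (starSet_one_of_factor h i (hgi ▸ hg)), he⟩

theorem dvd_mul_row {A B : Matrix (Fin 2) (Fin 2) ℤ} (hA : (q : ℤ) ∣ A 1 0 ∧ (q : ℤ) ∣ A 1 1)
    (j : Fin 2) : (q : ℤ) ∣ (A * B) 1 j := by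
  rw [Matrix.mul_apply, Fin.sum_univ_two]
  exact dvd_add (hA.1.mul_right _) (hA.2.mul_right _)

theorem starSet_mul {g x : GLR} {m n : ℕ} (hg : g ∈ starSet M q K m) (hx : x ∈ heckeSet M K n) :
    g * x ∈ starSet M q K (m * n) := by
  refine ⟨by rw [← mul_assoc q]; exact heckeSet_mul hg.1 hx, fun A hA => ?_⟩
  obtain ⟨G, hG, -⟩ := hg.1
  obtain ⟨X, hX, -⟩ := hx
  rw [hA.unique (hG.mul hX)]
  exact ⟨dvd_mul_row (hg.2 G hG) 0, dvd_mul_row (hg.2 G hG) 1⟩

/-- The representatives of the transposed correspondence form an admissible family. -/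
theorem admissible_sRep : Admissible (gammaH (M * q) (liftSub q K)) (gammaH M K) (sRep h) :=
  (isReps_sRep h).admissible fun _ hg γ => by
    simpa using starSet_mul hg (mapGL_mem_heckeSet_one γ.2)

theorem lowerLeft_mul_inv (γ δ : SL(2, ℤ)) :
    (γ * δ⁻¹) 1 0 = γ 1 0 * δ 1 1 - γ 1 1 * δ 1 0 := by
  rw [Matrix.SpecialLinearGroup.coe_mul, Matrix.SpecialLinearGroup.coe_inv,
    Matrix.adjugate_fin_two]
  simp [Matrix.mul_apply, Fin.sum_univ_two]
  ring

theorem cSL_dvd {i j : Option (Fin q)}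
    (hq : (q : ℤ) ∣ (cSL h i * (cSL h j)⁻¹ : SL(2, ℤ)) 1 0) : i = j := by
  have hq1 : ¬ (q : ℤ) ∣ 1 := h.prime_int.not_dvd_one
  have hM : ¬ (q : ℤ) ∣ (M : ℤ) := fun hd => h.not_dvd (Int.natCast_dvd_natCast.1 hd)
  have hv : ¬ (q : ℤ) ∣ bezN q M * M := fun hd => hq1 (h.bez ▸ dvd_add (dvd_mul_left _ _) hd)
  rw [lowerLeft_mul_inv] at hq
  rcases i with _ | x <;> rcases j with _ | y <;>
    simp only [cSL, Matrix.of_apply, Matrix.cons_val', Matrix.cons_val_zero,
      Matrix.cons_val_fin_one, Matrix.cons_val_one, neg_mul, mul_neg, sub_neg_eq_add, mul_one,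
      one_mul] at hq
  · rfl
  · refine absurd ?_ hv
    have h' := dvd_sub (dvd_mul_of_dvd_left (dvd_mul_left (q : ℤ) (bezQ q M))
      (-((M : ℤ) * (y : ℕ)))) hq
    ring_nf at h' ⊢
    exact h'
  · refine absurd ?_ hv
    have h' := dvd_sub hq (dvd_mul_of_dvd_right (dvd_mul_left (q : ℤ) (bezQ q M))
      ((M : ℤ) * (x : ℕ)))
    ring_nf at h' ⊢
    exact h'
  · have h1 : (q : ℤ) ∣ (M : ℤ) * (((x : ℕ) : ℤ) - (y : ℕ)) := by
      ring_nf at hq ⊢; exact hq
    have := Int.eq_zero_of_dvd_of_natAbs_lt_natAbs ((h.prime_int.dvd_or_dvd h1).resolve_left hM)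
      (by omega)
    congr 1
    ext
    omega

/-- The chosen elements represent `Γ_H(M q) \ Γ_H(M)`. -/
theorem isReps_cRep :
    IsReps (gammaH (M * q) (liftSub q K)) (img (gammaH M K) : Set GLR) (cRep h) where
  mem i := mapGL_mem_img.2 (cSL_mem h i)
  inj i j hij := by
    simp only [cRep, ← map_inv, ← map_mul, mapGL_mem_img] at hij
    exact cSL_dvd h (dvd_of_mem_lift hij)
  surj g hg := by
    have := fact_prime h
    obtain ⟨γ, rfl⟩ := exists_of_mem_img hg
    suffices ∃ i, (q : ℤ) ∣ ((γ : SL(2, ℤ)) * (cSL h i)⁻¹ : SL(2, ℤ)) 1 0 by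
      obtain ⟨i, hi⟩ := this
      refine ⟨i, ?_⟩
      simp only [cRep, ← map_inv, ← map_mul]
      exact mapGL_mem_img.2 (mem_lift h (mul_mem γ.2 (inv_mem (cSL_mem h i))) hi)
    obtain ⟨⟨g, hgdet⟩, hgm⟩ := γ
    set c := g 1 0
    set d := g 1 1
    by_cases hd : (q : ℤ) ∣ d
    · refine ⟨none, ?_⟩
      rw [lowerLeft_mul_inv]
      simp only [cSL, Matrix.of_apply, Matrix.cons_val', Matrix.cons_val_one,
        Matrix.cons_val_fin_one, Matrix.cons_val_zero, mul_neg, sub_neg_eq_add]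
      exact dvd_add ((dvd_mul_left _ _).mul_left _) (hd.mul_right _)
    · have hd' : ((d : ℤ) : ZMod q) ≠ 0 :=
        fun h0 => hd ((ZMod.intCast_zmod_eq_zero_iff_dvd _ _).1 h0)
      have hM' : ((M : ℤ) : ZMod q) ≠ 0 := fun h0 => h.not_dvd (Int.natCast_dvd_natCast.1
        ((ZMod.intCast_zmod_eq_zero_iff_dvd _ _).1 h0))
      set x : ZMod q := (c : ZMod q) / ((d : ZMod q) * ((M : ℤ) : ZMod q))
      refine ⟨some ⟨x.val, ZMod.val_lt x⟩, ?_⟩
      rw [lowerLeft_mul_inv]
      simp only [cSL, Matrix.of_apply, Matrix.cons_val', Matrix.cons_val_one,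
        Matrix.cons_val_fin_one, mul_one, Matrix.cons_val_zero]
      rw [← ZMod.intCast_zmod_eq_zero_iff_dvd]
      push_cast at hM' ⊢
      rw [ZMod.natCast_zmod_val]
      simp only [x]
      push_cast
      field_simp
      ring

/-- The representatives for corestriction form an admissible family. -/
theorem admissible_cRep : Admissible (gammaH (M * q) (liftSub q K)) (gammaH M K) (cRep h) :=
  (isReps_cRep h).admissible fun _ hg γ => mul_mem hg (mapGL_mem_img.2 γ.2)

theorem admissible_rRep :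
    Admissible (gammaH M K) (gammaH (M * q) (liftSub q K)) fun _ : Unit => (1 : GLR) :=
  admissible_res gammaH_lift_le

include h in
theorem alpha_conj {g : GLR} {n : ℕ} (hg : g ∈ heckeSet (M * q) (liftSub q K) n) :
    aRep q () * g * (aRep q ())⁻¹ ∈ heckeSet M K n := by
  obtain ⟨A, hA, hd, hc, u, hu, ha⟩ := hg
  obtain ⟨c, hc'⟩ := (ZMod.intCast_zmod_eq_zero_iff_dvd _ _).1 hc
  push_cast at hc'
  refine ⟨!![A 0 0, q * A 0 1; (M : ℤ) * c, A 1 1], ?_, ?_, by simp,
    ZMod.unitsMap (dvd_mul_right M q) u, hu, ?_⟩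
  · have h1 : IsIntMat (aRep q () * g) (!![A 0 0, q * A 0 1; (M : ℤ) * c, A 1 1] * !![(q : ℤ),
        0; 0, 1]) := by
      convert (isIntMat_aRep h).mul hA using 1
      ext a b
      fin_cases a <;> fin_cases b <;>
        simp [Matrix.mul_apply, Fin.sum_univ_two, hc'] <;> ring
    unfold IsIntMat at *
    rw [Units.val_mul, h1, Matrix.map_mul, ← isIntMat_aRep h, mul_assoc, ← Units.val_mul,
      mul_inv_cancel, Units.val_one, mul_one]
  · rw [Matrix.det_fin_two] at hd
    rw [Matrix.det_fin_two_of]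
    linear_combination hd + A 0 1 * hc'
  · simp only [Matrix.cons_val', Matrix.cons_val_zero, Matrix.of_apply, Matrix.cons_val_fin_one]
    rw [← map_intCast (ZMod.castHom (dvd_mul_right M q) (ZMod M)), ha]
    rfl

include h in
theorem admissible_aRep :
    Admissible (gammaH M K) (gammaH (M * q) (liftSub q K)) (aRep q) := fun γ =>
  ⟨id, Function.bijective_id, fun _ =>
    mem_img_of_mem_heckeSet_one (alpha_conj h (mapGL_mem_heckeSet_one γ.2))⟩

variable {A : Type*} [AddCommGroup A] (R : Type*) [Semiring R] [Module R A]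

/-- Restriction from level `M` to level `M q`. -/
def resDeg (q : ℕ) (K : Subgroup (ZMod M)ˣ) :
    (Additive (gammaH M K) →+ A) →ₗ[R] (Additive (gammaH (M * q) (liftSub q K)) →+ A) :=
  opOf (admissible_rRep (K := K) (q := q)) R

/-- Conjugation by `diag(q, 1)`. -/
def conjDeg (K : Subgroup (ZMod M)ˣ) :
    (Additive (gammaH M K) →+ A) →ₗ[R] (Additive (gammaH (M * q) (liftSub q K)) →+ A) :=
  opOf (admissible_aRep h (K := K)) R

/-- Corestriction to level `M`. -/
def corDeg (K : Subgroup (ZMod M)ˣ) :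
    (Additive (gammaH (M * q) (liftSub q K)) →+ A) →ₗ[R] (Additive (gammaH M K) →+ A) :=
  opOf (admissible_cRep h (K := K)) R

/-- The transpose of `conjDeg`. -/
def starDeg (K : Subgroup (ZMod M)ˣ) :
    (Additive (gammaH (M * q) (liftSub q K)) →+ A) →ₗ[R] (Additive (gammaH M K) →+ A) :=
  opOf (admissible_sRep h (K := K)) R

/-! ### Composites -/

theorem card_optionFin : Fintype.card (Option (Fin q)) = q + 1 := by simp

theorem corDeg_resDeg (φ : Additive (gammaH M K) →+ A) :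
    corDeg h R K (resDeg R q K φ) = (q + 1) • φ := by
  unfold corDeg resDeg
  rw [opOf_comp]
  refine (LinearMap.congr_fun (opOf_congr _ (admissible_id.copies (κ := Option (Fin q)))
    (Equiv.prodComm Unit (Option (Fin q))) fun p => ?_) φ).trans ?_
  swap
  · refine (LinearMap.congr_fun (opOf_copies admissible_id) φ).trans ?_
    rw [LinearMap.smul_apply, opOf_id, card_optionFin]
  simpa [cRep] using mapGL_mem_img.2 (cSL_mem h p.2)

theorem starDeg_resDeg [Fact q.Prime] (φ : Additive (gammaH M K) →+ A) :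
    starDeg h R K (resDeg R q K φ) = hecke M K q R φ := by
  unfold starDeg resDeg
  rw [opOf_comp, hecke_eq_opOf R ((isReps_sRep_top h).admissible fun _ hg γ =>
    heckeSet_mul_gammaH hg γ) (isReps_sRep_top h)]
  exact LinearMap.congr_fun (opOf_congr _ _ (Equiv.punitProd _) fun p => by simp) φ

theorem scalar_comm (g : GLR) : Commute (aRep q () * sRep h (some ⟨0, h.prime.pos⟩)) g := by
  have hz : IsIntMat (aRep q () * sRep h (some ⟨0, h.prime.pos⟩)) !![(q : ℤ), 0; 0, (q : ℤ)] := by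
    convert (isIntMat_aRep h).mul (isIntMat_sRep_some h _) using 1
    ext a b
    fin_cases a <;> fin_cases b <;> simp [Matrix.mul_apply, Fin.sum_univ_two]
  refine Units.ext ?_
  unfold IsIntMat at hz
  rw [Units.val_mul, Units.val_mul g, hz]
  ext a b
  fin_cases a <;> fin_cases b <;> simp [Matrix.mul_apply, Fin.sum_univ_two, mul_comm]

theorem starDeg_conjDeg (φ : Additive (gammaH M K) →+ A) :
    starDeg h R K (conjDeg h R K φ) = (q + 1) • φ := by
  unfold starDeg conjDeg
  set z := aRep q () * sRep h (some ⟨0, h.prime.pos⟩)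
  rw [opOf_comp]
  refine (LinearMap.congr_fun (opOf_congr _
    ((admissible_id.copies (κ := Option (Fin q))).mul_central (scalar_comm h))
    (Equiv.prodComm Unit (Option (Fin q))) fun p => ?_) φ).trans ?_
  swap
  · refine (LinearMap.congr_fun ((opOf_mul_central (scalar_comm h) _).trans
      (opOf_copies admissible_id)) φ).trans ?_
    rw [LinearMap.smul_apply, opOf_id, card_optionFin]
  obtain ⟨⟨⟩, i⟩ := p
  simp only [one_mul]
  have hzm : IsIntMat z !![(q : ℤ), 0; 0, (q : ℤ)] := by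
    convert (isIntMat_aRep h).mul (isIntMat_sRep_some h _) using 1
    ext a b
    fin_cases a <;> fin_cases b <;> simp [Matrix.mul_apply, Fin.sum_univ_two]
  rcases i with _ | x
  · refine (mul_inv_mem_img_iff ((isIntMat_aRep h).mul (isIntMat_sRep_none h)) hzm).2
      ⟨⟨!![bezQ q M * q, -bezN q M; (M : ℤ), 1], by
        rw [Matrix.det_fin_two_of]; linear_combination h.bez⟩, ⟨by simp, 1, one_mem K, ?_⟩, ?_⟩
    · have := congrArg (Int.cast : ℤ → ZMod M) h.bez
      simpa using this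
    · ext a b
      fin_cases a <;> fin_cases b <;> simp [Matrix.mul_apply, Fin.sum_univ_two] <;> ring
  · refine (mul_inv_mem_img_iff ((isIntMat_aRep h).mul (isIntMat_sRep_some h x)) hzm).2
      ⟨⟨!![1, ((x : ℕ) : ℤ); 0, 1], by simp [Matrix.det_fin_two_of]⟩,
        ⟨by simp, 1, one_mem K, by simp⟩, ?_⟩
    ext a b
    fin_cases a <;> fin_cases b <;> simp [Matrix.mul_apply, Fin.sum_univ_two, mul_comm]

/-- The class of `q` modulo `M`. -/
def qUnit : (ZMod M)ˣ :=
  ZMod.unitOfCoprime q ((Nat.Prime.coprime_iff_not_dvd h.prime).2 h.not_dvd)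

theorem corDeg_conjDeg [Fact q.Prime] (φ : Additive (gammaH M K) →+ A) :
    corDeg h R K (conjDeg h R K φ) = hecke M K q R (diamond M K R (qUnit h)⁻¹ φ) := by
  set σ := gamma0Elt (M := M) (qUnit h) with hσ
  have hσm : σ ∈ Gamma0 M := gamma0Elt_mem _
  set rep : Option (Fin q) → GLR := fun i => (mapGL ℝ σ)⁻¹ * (aRep q () * cRep h i) with hrep
  -- these representatives lie in the double coset of `T_q`
  have hmem : ∀ i, rep i ∈ heckeSet M K q := fun i => by
    have e : aRep q () * cRep h i = mapGL ℝ σ * rep i := by rw [hrep, mul_inv_cancel_left]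
    refine ⟨((σ⁻¹ : SL(2, ℤ)) : Matrix (Fin 2) (Fin 2) ℤ) * (!![(q : ℤ), 0; 0, 1] *
      (cSL h i : Matrix (Fin 2) (Fin 2) ℤ)), ?_, ?_, ?_, 1, one_mem K, ?_⟩
    · have := (isIntMat_mapGL σ⁻¹).mul ((isIntMat_aRep h).mul (isIntMat_mapGL (cSL h i)))
      rwa [map_inv] at this
    · rw [Matrix.det_mul, Matrix.det_mul, Matrix.SpecialLinearGroup.det_coe,
        Matrix.SpecialLinearGroup.det_coe, Matrix.det_fin_two_of]
      ring
    all_goals
      have hs := Gamma0_mem.1 hσm
      have ha : ((σ 0 0 : ℤ) : ZMod M) = (q : ZMod M) := by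
        rw [hσ, gamma0Elt_upperLeft, qUnit, ZMod.coe_unitOfCoprime]
      obtain ⟨hc, w, -, hw⟩ := cSL_mem (K := ⊥) h i
      have hc1 : (cSL h i 0 0 : ℤ) = 1 := by rcases i with _ | x <;> simp [cSL]
      have hd : ((σ 0 0 : ℤ) : ZMod M) * σ 1 1 - σ 0 1 * σ 1 0 = 1 := by
        exact_mod_cast congrArg (Int.cast : ℤ → ZMod M) (Gamma0.det_eq σ)
      rw [hs, mul_zero, sub_zero, ha] at hd
    · simp [Matrix.adjugate_fin_two, Matrix.vecMul, dotProduct, Matrix.mul_apply,
        Fin.sum_univ_two, hs, hc]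
    · simp [Matrix.adjugate_fin_two, Matrix.vecMul, dotProduct, Matrix.mul_apply,
        Fin.sum_univ_two, hc, hc1]
      linear_combination hd
  -- in different cosets
  have hinj : ∀ i j, rep i * (rep j)⁻¹ ∈ img (gammaH M K) → i = j := by
    intro i j hij
    obtain ⟨γ, -, hγ⟩ := hij
    have e : aRep q () * cRep h i = mapGL ℝ (σ * γ * σ⁻¹) * (aRep q () * cRep h j) := by
      rw [map_mul, map_mul, map_inv, hγ, hrep]
      group
    have h2 : IsIntMat (aRep q () * (cRep h i * (cRep h j)⁻¹))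
        (((σ * γ * σ⁻¹ : SL(2, ℤ)) : Matrix (Fin 2) (Fin 2) ℤ) * !![(q : ℤ), 0; 0, 1]) := by
      rw [← mul_assoc, e, mul_assoc (mapGL ℝ _), mul_inv_cancel_right]
      exact (isIntMat_mapGL _).mul (isIntMat_aRep h)
    simp only [cRep, ← map_inv, ← map_mul] at h2
    have h3 := congrFun (congrFun (h2.unique ((isIntMat_aRep h).mul (isIntMat_mapGL _))) 1) 0
    refine cSL_dvd h ⟨(σ * γ * σ⁻¹ : SL(2, ℤ)) 1 0, ?_⟩
    simp [Matrix.mul_apply, Fin.sum_univ_two] at h3 ⊢
    linear_combination -h3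
  -- and are as many as the cosets, so compute `T_q` after the diamond
  have hr : IsReps (gammaH M K) (heckeSet M K q) rep :=
    (isReps_sRep_top h).of_card hmem hinj le_rfl
  unfold corDeg conjDeg diamond
  rw [hecke_eq_opOf R (hr.admissible fun _ hg γ => heckeSet_mul_gammaH hg γ) hr, opOf_comp,
    opOf_comp]
  exact LinearMap.congr_fun (opOf_congr _ _ (Equiv.refl _) fun p => by
    simp [hrep, diaRep, ← hσ]) φ

/-! ### Hecke operators away from `q` -/

section Hecke

variable {n : ℕ} [hn : Fact n.Prime]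

theorem isReps_tower {Γ' Γ : Subgroup SL(2, ℤ)} {ι κ : Type*} {r1 : ι → GLR} {r2 : κ → GLR}
    {D : Set GLR} (hle : Γ' ≤ Γ) (h1 : IsReps Γ' (img Γ : Set GLR) r1) (h2 : IsReps Γ D r2)
    (hD : ∀ g ∈ img Γ, ∀ x ∈ D, g * x ∈ D) :
    IsReps Γ' D fun p : ι × κ => r1 p.1 * r2 p.2 where
  mem p := hD _ (h1.mem _) _ (h2.mem _)
  inj := by
    rintro ⟨i, k⟩ ⟨j, l⟩ hp
    obtain rfl : k = l := h2.inj k l (by
      have := mul_mem (mul_mem (inv_mem (h1.mem i)) (img_mono hle hp)) (h1.mem j)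
      simpa [mul_assoc] using this)
    obtain rfl : i = j := h1.inj i j (by simpa [mul_assoc] using hp)
    rfl
  surj g hg := by
    obtain ⟨k, hk⟩ := h2.surj g hg
    obtain ⟨i, hi⟩ := h1.surj _ hk
    exact ⟨(i, k), by simpa [mul_assoc] using hi⟩

omit hn in
include h in
theorem card_hIdx_lift (hnq : n ≠ q) (hn : n.Prime) :
    Nat.card (HIdx M n) = Nat.card (HIdx (M * q) n) := by
  refine Nat.card_congr (Equiv.subtypeEquivRight fun o => ?_)
  have : n ∣ M * q ↔ n ∣ M := ⟨fun hd => (hn.dvd_mul.1 hd).resolve_right fun hq =>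
    hnq ((Nat.prime_dvd_prime_iff_eq hn h.prime).1 hq), fun hd => hd.mul_right q⟩
  rw [this]

include h in
theorem isReps_hRep_lift (hnq : n ≠ q) :
    IsReps (gammaH M K) (heckeSet M K n) (hRep (M * q) n) :=
  isReps_hRep.of_card
    (fun i => heckeSet_level_mono (dvd_mul_right M q) le_rfl
      (hRep_mem_heckeSet (K := liftSub q K) i))
    (fun i j hij => hRep_injective_mod (Γ := gammaH M K) i j hij)
    (card_hIdx_lift h hnq hn.out).le

include h in
theorem hecke_eq_lift (hnq : n ≠ q) :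
    hecke (A := A) M K n R = opOf ((isReps_hRep_lift h (K := K) hnq).admissible fun _ hg γ =>
      heckeSet_mul_gammaH hg γ) R :=
  hecke_eq_opOf R _ (isReps_hRep_lift h hnq)

include h in
theorem not_dvd_det (hnq : n ≠ q) : ¬ (q : ℤ) ∣ (n : ℤ) := fun hd =>
  hnq ((Nat.prime_dvd_prime_iff_eq h.prime hn.out).1 (Int.natCast_dvd_natCast.1 hd)).symm

include h in
theorem hecke_resDeg (hnq : n ≠ q) (φ : Additive (gammaH M K) →+ A) :
    hecke (M * q) (liftSub q K) n R (resDeg R q K φ) = resDeg R q K (hecke M K n R φ) := by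
  rw [hecke_eq_lift h R hnq]
  unfold resDeg hecke
  rw [opOf_comp, opOf_comp]
  exact LinearMap.congr_fun (opOf_congr _ _ (Equiv.prodComm Unit (HIdx (M * q) n)) fun p => by
    simp) φ

theorem hecke_conjDeg (hnq : n ≠ q) (φ : Additive (gammaH M K) →+ A) :
    hecke (M * q) (liftSub q K) n R (conjDeg h R K φ) = conjDeg h R K (hecke M K n R φ) := by
  set k : HIdx (M * q) n → GLR := fun i => aRep q () * hRep (M * q) n i * (aRep q ())⁻¹
  have hk : IsReps (gammaH M K) (heckeSet M K n) k :=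
    (isReps_hRep_lift h hnq).of_card (fun i => alpha_conj h (hRep_mem_heckeSet i))
      (fun i j hij => by
        obtain ⟨γ, -, hγ⟩ := hij
        have e : aRep q () * hRep (M * q) n i = mapGL ℝ γ * aRep q () * hRep (M * q) n j := by
          rw [hγ]; simp only [k]; group
        have hd : ¬ (n : ℤ) ∣ (q : ℤ) := fun hd => hnq
          ((Nat.prime_dvd_prime_iff_eq hn.out h.prime).1 (Int.natCast_dvd_natCast.1 hd))
        refine factor_unique (isIntMat_aRep h) ((isIntMat_mapGL γ).mul (isIntMat_aRep h)) ?_ ?_ e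
        · simpa [Matrix.det_fin_two_of] using hd
        · simpa [Matrix.det_mul, Matrix.det_fin_two_of] using hd) le_rfl
  rw [hecke_eq_opOf R (hk.admissible fun _ hg γ => heckeSet_mul_gammaH hg γ) hk]
  unfold conjDeg hecke
  rw [opOf_comp, opOf_comp]
  exact LinearMap.congr_fun (opOf_congr _ _ (Equiv.prodComm Unit (HIdx (M * q) n)) fun p => by
    simp [k]) φ

theorem dvd_of_dvd_mul {H D : Matrix (Fin 2) (Fin 2) ℤ} (hH : (q : ℤ) ∣ H 1 0)
    (hdet : ¬ (q : ℤ) ∣ H.det) (hq : (q : ℤ).natAbs.Prime) (hHD : (q : ℤ) ∣ (H * D) 1 0) :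
    (q : ℤ) ∣ D 1 0 := by
  rw [Matrix.mul_apply, Fin.sum_univ_two] at hHD
  refine ((Int.prime_iff_natAbs_prime.2 hq).dvd_or_dvd
    ((dvd_add_right (hH.mul_right _)).1 hHD)).resolve_left fun h11 => hdet ?_
  rw [Matrix.det_fin_two]
  exact dvd_sub (h11.mul_left _) (hH.mul_left _)

theorem dvd_hRep {i : HIdx (M * q) n} {H : Matrix (Fin 2) (Fin 2) ℤ}
    (hH : IsIntMat (hRep (M * q) n i) H) : (q : ℤ) ∣ H 1 0 ∧ H.det = n := by
  obtain ⟨B, hB, hd, hc, -⟩ := hRep_mem_heckeSet (K := liftSub q (⊥ : Subgroup (ZMod M)ˣ)) i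
  rw [hH.unique hB]
  exact ⟨(Int.natCast_dvd_natCast.2 (dvd_mul_left q M)).trans
    ((ZMod.intCast_zmod_eq_zero_iff_dvd _ _).1 hc), hd⟩

/-- Corestriction commutes with the Hecke operators at `n ≠ q`. -/
theorem corDeg_hecke (hnq : n ≠ q) (x : Additive (gammaH (M * q) (liftSub q K)) →+ A) :
    corDeg h R K (hecke (M * q) (liftSub q K) n R x) = hecke M K n R (corDeg h R K x) := by
  rw [hecke_eq_lift h R hnq]
  unfold corDeg hecke
  rw [opOf_comp, opOf_comp]
  have ha := isReps_tower gammaH_lift_le (isReps_cRep h (K := K)) (isReps_hRep_lift h hnq)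
    fun g hg y hy => by
      obtain ⟨γ, rfl⟩ := exists_of_mem_img hg
      exact gammaH_mul_heckeSet hy γ.2
  refine LinearMap.congr_fun (opOf_eq_of_isReps _ _ ?_ ha) x
  refine ha.of_card (fun p => heckeSet_mul_gammaH (n := n)
    ((isReps_hRep_lift h hnq).mem p.1) ⟨_, cSL_mem h p.2⟩) ?_
    (le_of_eq (Nat.card_congr (Equiv.prodComm _ _)))
  rintro ⟨i, j⟩ ⟨k, l⟩ hp
  obtain ⟨γ, hγ, he⟩ := hp
  obtain ⟨H, hH, -⟩ := hRep_mem_heckeSet (K := liftSub q K) i
  obtain ⟨H', hH', -⟩ := hRep_mem_heckeSet (K := liftSub q K) k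
  have e : hRep (M * q) n i * mapGL ℝ (cSL h j * (cSL h l)⁻¹) =
      mapGL ℝ γ * hRep (M * q) n k := by
    rw [he]
    simp only [cRep, map_mul, map_inv]
    group
  have e' := (e ▸ hH.mul (isIntMat_mapGL _)).unique ((isIntMat_mapGL γ).mul hH')
  obtain rfl : j = l := cSL_dvd h (by
    obtain ⟨h10, hdet⟩ := dvd_hRep hH
    refine dvd_of_dvd_mul h10 (hdet ▸ not_dvd_det h hnq) (by simpa using h.prime) ?_
    rw [e', Matrix.mul_apply, Fin.sum_univ_two]
    exact dvd_add ((dvd_of_mem_lift hγ).mul_right _) ((dvd_hRep hH').1.mul_left _))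
  rw [mul_inv_cancel, map_one, mul_one] at e
  obtain rfl : i = k := hRep_injective_mod i k ⟨γ, hγ, by rw [e, mul_inv_cancel_right]⟩
  rfl

/-- The products `sRep * hRep` represent `starSet M q K n`. -/
private theorem isReps_sRep_hRep (hnq : n ≠ q) :
    IsReps (gammaH (M * q) (liftSub q K)) (starSet M q K n)
      fun p : Option (Fin q) × HIdx (M * q) n => sRep h p.1 * hRep (M * q) n p.2 := by
  have hqn : ¬ (n : ℤ) ∣ (q : ℤ) := fun hd => hnq
    ((Nat.prime_dvd_prime_iff_eq hn.out h.prime).1 (Int.natCast_dvd_natCast.1 hd))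
  refine ⟨fun r => ?_, ?_, fun g hg => ?_⟩
  · have hmem := starSet_mul (sRep_mem h (K := K) r.1)
      ((isReps_hRep_lift h (K := K) hnq).mem r.2)
    simpa using hmem
  · rintro ⟨j, i⟩ ⟨l, k⟩ ⟨γ, hγ, he⟩
    obtain ⟨X, hX, hXd, -⟩ := (sRep_mem h (K := K) j).1
    obtain ⟨Y, hY, hYd, -⟩ := (sRep_mem h (K := K) l).1
    have e : sRep h j * hRep (M * q) n i = mapGL ℝ γ * sRep h l * hRep (M * q) n k := by
      rw [he]; group
    obtain rfl : i = k := factor_unique hX ((isIntMat_mapGL γ).mul hY)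
      (by rw [hXd, mul_one]; exact hqn)
      (by rw [Matrix.det_mul, Matrix.SpecialLinearGroup.det_coe, one_mul, hYd,
        mul_one]; exact hqn) e
    refine Prod.ext ((isReps_sRep h).inj j l ⟨γ, hγ, ?_⟩) rfl
    rw [eq_mul_inv_iff_mul_eq]
    exact (mul_right_cancel e).symm
  · obtain ⟨i₀, x, hx, hgx⟩ := exists_factor (n := n) (m := q)
      (by simpa using hg.1)
    obtain ⟨i, γ, hγ, hi⟩ := (isReps_hRep_lift h (K := K) hnq).surj _ (hRep_mem_heckeSet i₀)
    have hgy : g = (x * mapGL ℝ γ) * hRep (M * q) n i := by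
      rw [hgx, hi]; group
    have hy : x * mapGL ℝ γ ∈ starSet M q K 1 := by
      have hy' := heckeSet_mul_gammaH hx ⟨γ, hγ⟩
      refine ⟨by simpa using hy', fun X hX => ?_⟩
      obtain ⟨H, hH, hHd, -⟩ := hRep_mem_heckeSet (K := liftSub q K) i
      have hrow := hg.2 _ (hgy ▸ hX.mul hH)
      have e : X * H * H.adjugate = (n : ℤ) • X := by
        rw [mul_assoc, Matrix.mul_adjugate, hHd, mul_smul_comm, mul_one]
      have hb : ∀ b, (q : ℤ) ∣ X 1 b := fun b => by
        have h' := dvd_mul_row (B := H.adjugate) hrow b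
        rw [e] at h'
        exact (h.prime_int.dvd_or_dvd (show (q : ℤ) ∣ (n : ℤ) * X 1 b from h')).resolve_left
          (not_dvd_det h hnq)
      exact ⟨hb 0, hb 1⟩
    obtain ⟨j, hj⟩ := (isReps_sRep h).surj _ hy
    exact ⟨(j, i), by rw [hgy]; simpa [mul_assoc] using hj⟩

/-- In a product `hRep * sRep` the entries modulo `q` determine the factor `sRep`. -/
private theorem sRep_index_eq (hnq : n ≠ q) {i k : HIdx (M * q) n} {j l : Option (Fin q)}
    {γ : SL(2, ℤ)} (hγ : γ ∈ gammaH (M * q) (liftSub q K))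
    (e : hRep (M * q) n i * sRep h j = mapGL ℝ γ * hRep (M * q) n k * sRep h l) : j = l := by
  obtain ⟨H, hH, -⟩ := hRep_mem_heckeSet (K := liftSub q K) i
  obtain ⟨H', hH', -⟩ := hRep_mem_heckeSet (K := liftSub q K) k
  obtain ⟨h10, hdet⟩ := dvd_hRep hH
  obtain ⟨h10', hdet'⟩ := dvd_hRep hH'
  set P := H.adjugate * ((γ : Matrix (Fin 2) (Fin 2) ℤ) * H')
  have hP10 : (q : ℤ) ∣ P 1 0 := by
    simp only [P, Matrix.adjugate_fin_two, Matrix.mul_apply, Fin.sum_univ_two]
    simp only [Matrix.of_apply, Matrix.cons_val', Matrix.cons_val_zero, Matrix.cons_val_fin_one,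
      Matrix.cons_val_one, neg_mul]
    exact dvd_add (dvd_neg.2 (h10.mul_right _))
      (dvd_mul_of_dvd_right (dvd_add ((dvd_of_mem_lift hγ).mul_right _) (h10'.mul_left _)) _)
  have hP00 : ¬ (q : ℤ) ∣ P 0 0 := fun h00 => not_dvd_det h hnq
    ((h.prime_int.dvd_or_dvd (a := (n : ℤ)) (b := (n : ℤ)) (by
      rw [show (n : ℤ) * n = P.det by
        simp [P, Matrix.det_mul, Matrix.det_adjugate, hdet, hdet'], Matrix.det_fin_two]
      exact dvd_sub (h00.mul_right _) (hP10.mul_left _))).elim id id)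
  have key : ∀ {S S' : Matrix (Fin 2) (Fin 2) ℤ}, IsIntMat (sRep h j) S →
      IsIntMat (sRep h l) S' → ∀ b, (n : ℤ) * S 0 b = P 0 0 * S' 0 b + P 0 1 * S' 1 b := by
    intro S S' hS hS' b
    have e' := congrArg (H.adjugate * ·)
      ((e ▸ hH.mul hS).unique (((isIntMat_mapGL γ).mul hH').mul hS'))
    simp only [← mul_assoc, Matrix.adjugate_mul, hdet, smul_mul_assoc, one_mul] at e'
    have := congrFun (congrFun e' 0) b
    rw [Matrix.smul_apply, smul_eq_mul] at this
    rw [this, mul_assoc H.adjugate]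
    exact (Matrix.mul_apply).trans (Fin.sum_univ_two _)
  have hn' := not_dvd_det h hnq
  rcases j with _ | x <;> rcases l with _ | y
  · rfl
  · have k0 := key (isIntMat_sRep_none h) (isIntMat_sRep_some h y) 0
    simp only [Matrix.of_apply, Matrix.cons_val', Matrix.cons_val_zero, Matrix.cons_val_fin_one,
      mul_one, Matrix.cons_val_one, mul_zero, add_zero] at k0
    exact absurd ⟨(n : ℤ) * bezQ q M, by rw [← k0]; ring⟩ hP00
  · have k0 := key (isIntMat_sRep_some h x) (isIntMat_sRep_none h) 0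
    simp only [Matrix.of_apply, Matrix.cons_val', Matrix.cons_val_zero, Matrix.cons_val_fin_one,
      mul_one, Matrix.cons_val_one] at k0
    exact absurd ⟨P 0 0 * bezQ q M + P 0 1 * M, by rw [k0]; ring⟩ hn'
  · have k0 := key (isIntMat_sRep_some h x) (isIntMat_sRep_some h y) 0
    have k1 := key (isIntMat_sRep_some h x) (isIntMat_sRep_some h y) 1
    simp only [Matrix.of_apply, Matrix.cons_val', Matrix.cons_val_zero, Matrix.cons_val_fin_one,
      mul_one, Matrix.cons_val_one, mul_zero, add_zero] at k0 k1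
    rw [← k0] at k1
    have hxy : (q : ℤ) ∣ (n : ℤ) * (((x : ℕ) : ℤ) - (y : ℕ)) :=
      ⟨P 0 1, by linear_combination k1⟩
    have := Int.eq_zero_of_dvd_of_natAbs_lt_natAbs
      ((h.prime_int.dvd_or_dvd hxy).resolve_left hn') (by omega)
    congr 1
    ext
    omega

/-- The transpose of conjugation commutes with the Hecke operators at `n ≠ q`. -/
theorem starDeg_hecke (hnq : n ≠ q) (x : Additive (gammaH (M * q) (liftSub q K)) →+ A) :
    starDeg h R K (hecke (M * q) (liftSub q K) n R x) = hecke M K n R (starDeg h R K x) := by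
  rw [hecke_eq_lift h R hnq]
  unfold starDeg hecke
  rw [opOf_comp, opOf_comp]
  -- The products of representatives in one order represent `starSet M q K n`.
  have ha := isReps_sRep_hRep h (K := K) hnq
  -- Those in the other order lie in it and are as many; they are inequivalent, as the entries
  -- modulo `q` determine the factor `sRep`.
  refine LinearMap.congr_fun (opOf_eq_of_isReps _ _ ?_ ha) x
  refine ha.of_card (fun p => ?_) ?_ (le_of_eq (Nat.card_congr (Equiv.prodComm _ _)))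
  · obtain ⟨H, hH, -⟩ := hRep_mem_heckeSet (K := liftSub q K) p.1
    obtain ⟨S, hS, -⟩ := (sRep_mem h (K := K) p.2).1
    have hmem := heckeSet_mul ((isReps_hRep_lift h (K := K) hnq).mem p.1) (sRep_mem h p.2).1
    refine ⟨by simpa [mul_comm q n] using hmem, fun G hG => ?_⟩
    rw [hG.unique (hH.mul hS)]
    have hHq := (dvd_hRep hH).1
    have hSq := (sRep_mem h (K := K) p.2).2 S hS
    constructor <;> rw [Matrix.mul_apply, Fin.sum_univ_two]
    · exact dvd_add (hHq.mul_right _) (hSq.1.mul_left _)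
    · exact dvd_add (hHq.mul_right _) (hSq.2.mul_left _)
  rintro ⟨i, j⟩ ⟨k, l⟩ ⟨γ, hγ, he⟩
  have e : hRep (M * q) n i * sRep h j = mapGL ℝ γ * hRep (M * q) n k * sRep h l := by
    rw [he]; group
  obtain rfl : j = l := sRep_index_eq h hnq hγ e
  obtain rfl : i = k := hRep_injective_mod i k
    ⟨γ, hγ, eq_mul_inv_iff_mul_eq.2 (mul_right_cancel e).symm⟩
  rfl

end Hecke

/-! ### Diamond operators -/

section Diamond

variable (u : (ZMod (M * q))ˣ)

theorem conj_mem_heckeSet {n : ℕ} {g : GLR} (hg : g ∈ heckeSet M K n) {τ : SL(2, ℤ)}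
    (hτ : τ ∈ Gamma0 M) : mapGL ℝ τ * g * (mapGL ℝ τ)⁻¹ ∈ heckeSet M K n := by
  obtain ⟨B, hB, hBd, hBc, w, hw, hBa⟩ := hg
  have hs := Gamma0_mem.1 hτ
  have hd : ((τ 0 0 : ℤ) : ZMod M) * τ 1 1 - τ 0 1 * τ 1 0 = 1 := by
    exact_mod_cast congrArg (Int.cast : ℤ → ZMod M) (Gamma0.det_eq τ)
  refine ⟨(τ : Matrix (Fin 2) (Fin 2) ℤ) * B * (τ⁻¹ : SL(2, ℤ)),
    ((isIntMat_mapGL τ).mul hB).mul (map_inv (mapGL ℝ) τ ▸ isIntMat_mapGL τ⁻¹), ?_, ?_, w, hw, ?_⟩
  · rw [Matrix.det_mul, Matrix.det_mul, Matrix.SpecialLinearGroup.det_coe,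
      Matrix.SpecialLinearGroup.det_coe, hBd, one_mul, mul_one]
  · simp [Matrix.adjugate_fin_two, Matrix.mul_apply, Fin.sum_univ_two, hs, hBc]
  · simp [Matrix.adjugate_fin_two, Matrix.mul_apply, Fin.sum_univ_two, hs, hBc, hBa]
    linear_combination (w : ZMod M) * hd + (w : ZMod M) * (τ 0 1 : ZMod M) * hs

theorem diamond_lift_spec :
    gamma0Elt u⁻¹ ∈ Gamma0 M ∧ ((gamma0Elt u⁻¹) 0 0 : ZMod M) =
      ((ZMod.unitsMap (dvd_mul_right M q) u)⁻¹ : (ZMod M)ˣ) := by
  refine ⟨Gamma0_mem.2 ?_, ?_⟩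
  · rw [← map_intCast (ZMod.castHom (dvd_mul_right M q) (ZMod M)), gamma0Elt_lowerLeft, map_zero]
  · rw [← map_intCast (ZMod.castHom (dvd_mul_right M q) (ZMod M)), gamma0Elt_upperLeft,
      ← map_inv]
    rfl

theorem diamond_eq_lift (hadm : Admissible (gammaH M K) (gammaH M K) (diaRep u)) :
    diamond (A := A) M K R (ZMod.unitsMap (dvd_mul_right M q) u) = opOf hadm R :=
  diamond_eq_opOf R _ (diamond_lift_spec u).1 (one_mem K)
    (by rw [(diamond_lift_spec u).2, Units.val_one, one_mul]) hadm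

theorem admissible_diaRep_lift : Admissible (gammaH M K) (gammaH M K) (diaRep u) := fun γ =>
  ⟨id, Function.bijective_id, fun _ => by
    simp only [diaRep, ← map_inv, ← map_mul]
    exact mapGL_mem_img.2 (gammaH_conj (diamond_lift_spec u).1 γ.2)⟩

theorem diamond_resDeg (φ : Additive (gammaH M K) →+ A) :
    diamond (M * q) (liftSub q K) R u (resDeg R q K φ) =
      resDeg R q K (diamond M K R (ZMod.unitsMap (dvd_mul_right M q) u) φ) := by
  rw [diamond_eq_lift R u (admissible_diaRep_lift u)]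
  unfold resDeg diamond
  rw [opOf_comp, opOf_comp]
  exact LinearMap.congr_fun (opOf_congr _ _ (Equiv.prodComm Unit Unit) fun p => by
    simp [diaRep]) φ

theorem diamond_conjDeg (φ : Additive (gammaH M K) →+ A) :
    diamond (M * q) (liftSub q K) R u (conjDeg h R K φ) =
      conjDeg h R K (diamond M K R (ZMod.unitsMap (dvd_mul_right M q) u) φ) := by
  obtain ⟨τ, hτ, hτe⟩ := mem_img_of_mem_heckeSet_one (alpha_conj h (K := (⊤ : Subgroup _))
    (mapGL_mem_heckeSet_one (K := liftSub q ⊤) (γ := gamma0Elt u⁻¹)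
      ((gammaH_top (M := M * q)).ge (gamma0Elt_mem _))))
  have h00 : τ 0 0 = gamma0Elt u⁻¹ 0 0 := by
    have e : mapGL ℝ τ * aRep q () = aRep q () * mapGL ℝ (gamma0Elt u⁻¹) := by
      rw [hτe, inv_mul_cancel_right]
    have := congrFun (congrFun ((e ▸ (isIntMat_mapGL τ).mul (isIntMat_aRep h)).unique
      ((isIntMat_aRep h).mul (isIntMat_mapGL _))) 0) 0
    simp [Matrix.mul_apply, Fin.sum_univ_two] at this
    exact mul_right_cancel₀ h.ne_zero (this.trans (mul_comm _ _))
  have hadm : Admissible (gammaH M K) (gammaH M K) fun _ : Unit => mapGL ℝ τ := fun γ =>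
    ⟨id, Function.bijective_id, fun _ => by
      simp only [← map_inv, ← map_mul]
      exact mapGL_mem_img.2 (gammaH_conj (gammaH_top.le hτ) γ.2)⟩
  rw [diamond_eq_opOf R _ (gammaH_top.le hτ) (one_mem K)
    (by rw [h00, (diamond_lift_spec u).2, Units.val_one, one_mul]) hadm]
  unfold conjDeg diamond
  rw [opOf_comp, opOf_comp]
  exact LinearMap.congr_fun (opOf_congr _ _ (Equiv.prodComm Unit Unit) fun p => by
    simp [diaRep, hτe]) φ

theorem isReps_conj_twist {Γ' : Subgroup SL(2, ℤ)} {ι : Type*} [Finite ι] {D : Set GLR}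
    {rep : ι → GLR} (hr : IsReps Γ' D rep) (σ : GLR)
    (hD : ∀ g ∈ D, σ * g * σ⁻¹ ∈ D) (hσ : ∀ g ∈ img Γ', σ⁻¹ * g * σ ∈ img Γ') :
    IsReps Γ' {g | g * σ⁻¹ ∈ D} (fun p : Unit × ι => σ * rep p.2) ∧
      IsReps Γ' {g | g * σ⁻¹ ∈ D} (fun p : ι × Unit => rep p.1 * σ) := by
  have hb : IsReps Γ' {g | g * σ⁻¹ ∈ D} (fun p : ι × Unit => rep p.1 * σ) :=
    ⟨fun p => by simpa using hr.mem p.1, fun i j hij => Prod.ext (hr.inj i.1 j.1 (by
      simpa [mul_assoc] using hij)) rfl, fun g hg => (hr.surj _ hg).elim fun i hi =>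
        ⟨(i, ()), by simpa [mul_assoc] using hi⟩⟩
  refine ⟨hb.of_card (fun p => hD _ (hr.mem p.2)) (fun i j hij => Prod.ext rfl (hr.inj _ _ ?_))
    (le_of_eq (Nat.card_congr (Equiv.prodComm _ _))), hb⟩
  simpa [mul_assoc] using hσ _ hij

theorem conj_img_lift {g : GLR} (hg : g ∈ img (gammaH (M * q) (liftSub q K))) :
    (mapGL ℝ (gamma0Elt u⁻¹) : GLR)⁻¹ * g * mapGL ℝ (gamma0Elt u⁻¹) ∈
      img (gammaH (M * q) (liftSub q K)) := by
  obtain ⟨γ, rfl⟩ := exists_of_mem_img hg
  rw [← map_inv, ← map_mul, ← map_mul, mapGL_mem_img]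
  simpa using gammaH_conj (inv_mem (gamma0Elt_mem u⁻¹)) γ.2

/-- Corestriction commutes with diamond operators. -/
theorem corDeg_diamond (x : Additive (gammaH (M * q) (liftSub q K)) →+ A) :
    corDeg h R K (diamond (M * q) (liftSub q K) R u x) =
      diamond M K R (ZMod.unitsMap (dvd_mul_right M q) u) (corDeg h R K x) := by
  rw [diamond_eq_lift R u (admissible_diaRep_lift u)]
  unfold corDeg diamond
  rw [opOf_comp, opOf_comp]
  obtain ⟨ha, hb⟩ := isReps_conj_twist (isReps_cRep h (K := K)) (mapGL ℝ (gamma0Elt u⁻¹))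
    (fun g hg => by
      obtain ⟨γ, rfl⟩ := exists_of_mem_img hg
      rw [← map_inv, ← map_mul, ← map_mul]
      exact mapGL_mem_img.2 (gammaH_conj (diamond_lift_spec u).1 γ.2)) fun g => conj_img_lift u
  exact LinearMap.congr_fun (opOf_eq_of_isReps _ _ ha hb) x

/-- The transpose of conjugation commutes with diamond operators. -/
theorem starDeg_diamond (x : Additive (gammaH (M * q) (liftSub q K)) →+ A) :
    starDeg h R K (diamond (M * q) (liftSub q K) R u x) =
      diamond M K R (ZMod.unitsMap (dvd_mul_right M q) u) (starDeg h R K x) := by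
  rw [diamond_eq_lift R u (admissible_diaRep_lift u)]
  unfold starDeg diamond
  rw [opOf_comp, opOf_comp]
  set σ := gamma0Elt u⁻¹
  obtain ⟨ha, hb⟩ := isReps_conj_twist (isReps_sRep h (K := K)) (mapGL ℝ σ)
    (fun g hg => ⟨conj_mem_heckeSet hg.1 (diamond_lift_spec u).1, fun B hB => by
      obtain ⟨G, hG, -⟩ := hg.1
      rw [hB.unique (((isIntMat_mapGL σ).mul hG).mul
        (map_inv (mapGL ℝ) σ ▸ isIntMat_mapGL σ⁻¹))]
      have h10 : (q : ℤ) ∣ σ 1 0 := (Int.natCast_dvd_natCast.2 (dvd_mul_left q M)).trans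
        ((ZMod.intCast_zmod_eq_zero_iff_dvd _ _).1 (gamma0Elt_lowerLeft _))
      refine ⟨dvd_mul_row ?_ 0, dvd_mul_row ?_ 1⟩ <;> constructor <;>
        rw [Matrix.mul_apply, Fin.sum_univ_two]
      all_goals first
        | exact dvd_add (h10.mul_right _) ((hg.2 G hG).1.mul_left _)
        | exact dvd_add (h10.mul_right _) ((hg.2 G hG).2.mul_left _)⟩)
    fun g => conj_img_lift u
  exact LinearMap.congr_fun (opOf_eq_of_isReps _ _ ha hb) x

end Diamond

/-! ### Corestriction to `Γ₀` -/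

section CoresTop

variable [Fintype ((ZMod M)ˣ ⧸ K)] [Fintype ((ZMod (M * q))ˣ ⧸ liftSub q K)]

omit [Fintype ((ZMod M)ˣ ⧸ K)] [Fintype ((ZMod (M * q))ˣ ⧸ liftSub q K)] in
include h in
theorem exists_classEquiv [NeZero M] :
    ∃ e : ((ZMod (M * q))ˣ ⧸ liftSub q K) ≃ ((ZMod M)ˣ ⧸ K),
      ∀ p, (mapGL ℝ (deltaRep (liftSub q K) p) : GLR) * (mapGL ℝ (deltaRep K (e p)))⁻¹ ∈
        img (gammaH M K) := by
  have : NeZero q := ⟨h.prime.ne_zero⟩
  let π := ZMod.unitsMap (dvd_mul_right M q)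
  refine ⟨Equiv.ofBijective (fun p => QuotientGroup.mk (π p.out)) ⟨fun a b hab => ?_,
    fun r => ?_⟩, fun p => ?_⟩
  · rw [QuotientGroup.eq] at hab
    rw [← QuotientGroup.out_eq' a, ← QuotientGroup.out_eq' b, QuotientGroup.eq]
    simpa [liftSub, π] using hab
  · induction r using QuotientGroup.induction_on with | _ v => ?_
    obtain ⟨w, rfl⟩ := ZMod.unitsMap_surjective (dvd_mul_right M q) v
    refine ⟨QuotientGroup.mk w, QuotientGroup.eq.2 ?_⟩
    have := QuotientGroup.eq.1 (QuotientGroup.out_eq'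
      (QuotientGroup.mk w : (ZMod (M * q))ˣ ⧸ liftSub q K))
    simpa [liftSub, π] using this
  · have hsp := diamond_lift_spec (M := M) (q := q) p.out
    set r : (ZMod M)ˣ ⧸ K := QuotientGroup.mk (π p.out) with hr
    show mapGL ℝ (gamma0Elt p.out⁻¹) * (mapGL ℝ (deltaRep K r))⁻¹ ∈ _
    rw [← map_inv, ← map_mul]
    refine mapGL_mem_img.2 (gamma0_mul_inv_mem hsp.1 (deltaRep_mem r)
      (u := (π p.out)⁻¹ * r.out) (QuotientGroup.eq.1 (QuotientGroup.out_eq' r).symm) ?_)
    rw [hsp.2, deltaRep_upperLeft, Units.val_mul, mul_assoc, Units.mul_inv, mul_one]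

include h in
theorem coresTop_resDeg [NeZero M] (φ : Additive (gammaH M K) →+ A) :
    coresTop R (liftSub q K) (resDeg R q K φ) = resDeg R q ⊤ (coresTop R K φ) := by
  unfold coresTop IsCoreps.cores resDeg
  rw [opOf_comp, opOf_comp]
  obtain ⟨e, he⟩ := exists_classEquiv h (K := K)
  exact LinearMap.congr_fun (opOf_congr _ _
    ((Equiv.prodComm Unit _).trans (e.prodCongr (Equiv.refl Unit))) fun p => by
      simpa using he p.2) φ

theorem coresTop_conjDeg [NeZero M] (φ : Additive (gammaH M K) →+ A) :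
    coresTop R (liftSub q K) (conjDeg h R K φ) = conjDeg h R ⊤ (coresTop R K φ) := by
  unfold coresTop IsCoreps.cores conjDeg
  rw [opOf_comp, opOf_comp]
  obtain ⟨e, he⟩ := exists_classEquiv h (K := K)
  refine LinearMap.congr_fun (opOf_congr _ _
    ((Equiv.prodComm Unit _).trans (e.prodCongr (Equiv.refl Unit))) fun p => ?_) φ
  set σ := deltaRep (liftSub q K) p.2
  obtain ⟨τ, hτ, hτe⟩ := mem_img_of_mem_heckeSet_one (alpha_conj h (K := (⊤ : Subgroup _))
    (mapGL_mem_heckeSet_one (K := liftSub q ⊤) (γ := σ)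
      ((gammaH_top (M := M * q)).ge (deltaRep_mem _))))
  have h00 : τ 0 0 = σ 0 0 := by
    have e' : mapGL ℝ τ * aRep q () = aRep q () * mapGL ℝ σ := by
      rw [hτe, inv_mul_cancel_right]
    have := congrFun (congrFun ((e' ▸ (isIntMat_mapGL τ).mul (isIntMat_aRep h)).unique
      ((isIntMat_aRep h).mul (isIntMat_mapGL _))) 0) 0
    simp [Matrix.mul_apply, Fin.sum_univ_two] at this
    exact mul_right_cancel₀ h.ne_zero (this.trans (mul_comm _ _))
  have hσM : σ ∈ Gamma0 M := (diamond_lift_spec p.2.out).1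
  have h1 : (mapGL ℝ τ : GLR) * (mapGL ℝ σ)⁻¹ ∈ img (gammaH M K) := by
    rw [← map_inv, ← map_mul]
    exact mapGL_mem_img.2 (gamma0_mul_inv_mem (gammaH_top.le hτ) hσM (one_mem K)
      (by rw [h00, Units.val_one, one_mul]))
  have := mul_mem h1 (he p.2)
  obtain ⟨⟨⟩, r⟩ := p
  simp only [Equiv.trans_apply, Equiv.prodComm_apply, Equiv.prodCongr_apply, Prod.map,
    Equiv.refl_apply, Prod.swap]
  convert this using 1
  rw [hτe]
  simp only [σ]
  group

theorem corDeg_coresTop (x : Additive (gammaH (M * q) (liftSub q K)) →+ A) :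
    corDeg h R ⊤ (coresTop R (liftSub q K) x) = coresTop R K (corDeg h R K x) := by
  unfold coresTop IsCoreps.cores corDeg
  refine ((opOf_comp _ _ x).trans ?_).trans (opOf_comp _ _ x).symm
  refine LinearMap.congr_fun (opOf_eq_of_isReps (D := (img (gammaH M ⊤) : Set GLR)) _ _ ?_ ?_) x
  · exact isReps_tower (gammaH_mono le_top) (isCoreps_deltaRep (K := liftSub q K)).isReps
      (isReps_cRep h (K := ⊤)) fun g hg y hy => mul_mem (img_mono gammaH_lift_le hg) hy
  · exact isReps_tower gammaH_lift_le (isReps_cRep h (K := K)) (isCoreps_deltaRep (K := K)).isReps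
      fun g hg y hy => mul_mem (img_mono le_top_gammaH hg) hy

theorem starDeg_coresTop [NeZero M] (x : Additive (gammaH (M * q) (liftSub q K)) →+ A) :
    starDeg h R ⊤ (coresTop R (liftSub q K) x) = coresTop R K (starDeg h R K x) := by
  unfold coresTop IsCoreps.cores starDeg
  refine ((opOf_comp _ _ x).trans ?_).trans (opOf_comp _ _ x).symm
  obtain ⟨e, -⟩ := exists_classEquiv h (K := K)
  have ha : IsReps (gammaH (M * q) (liftSub q K)) (starSet M q ⊤ 1)
      fun p : ((ZMod (M * q))ˣ ⧸ liftSub q K) × Option (Fin q) =>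
        mapGL ℝ (deltaRep (liftSub q K) p.1) * sRep h p.2 := by
    refine isReps_tower (gammaH_mono le_top) (isCoreps_deltaRep (K := liftSub q K)).isReps
      (isReps_sRep h (K := ⊤)) fun g hg y hy => ?_
    obtain ⟨γ, rfl⟩ := exists_of_mem_img hg
    refine ⟨gammaH_mul_heckeSet hy.1 (gammaH_lift_le γ.2), fun G hG => ?_⟩
    obtain ⟨Y, hY, -⟩ := hy.1
    rw [hG.unique ((isIntMat_mapGL _).mul hY)]
    have hγ := dvd_of_mem_lift (K := (⊤ : Subgroup (ZMod M)ˣ)) γ.2
    constructor <;> rw [Matrix.mul_apply, Fin.sum_univ_two]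
    · exact dvd_add (hγ.mul_right _) ((hy.2 Y hY).1.mul_left _)
    · exact dvd_add (hγ.mul_right _) ((hy.2 Y hY).2.mul_left _)
  refine LinearMap.congr_fun (opOf_eq_of_isReps _ _ ha ?_) x
  refine ha.of_card (fun p => by
    simpa using starSet_mul (sRep_mem h (K := ⊤) p.1)
      (mapGL_mem_heckeSet_one (gammaH_top.ge (deltaRep_mem p.2)))) ?_
    (le_of_eq (Nat.card_congr ((Equiv.prodCongr e (Equiv.refl _)).trans (Equiv.prodComm _ _))))
  rintro ⟨j, r⟩ ⟨l, r'⟩ ⟨γ, hγ, hp⟩
  set τ := deltaRep K r * (deltaRep K r')⁻¹ with hτ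
  have e' : sRep h j * mapGL ℝ τ = mapGL ℝ γ * sRep h l := by
    rw [hp, hτ, map_mul, map_inv]; group
  obtain rfl : r = r' := isCoreps_deltaRep.inj r r' (by
    obtain ⟨X, hX, -, hXc, x₀, hx₀, hXa⟩ := (sRep_mem h (K := K) j).1
    obtain ⟨Y, hY, -, hYc, y₀, hy₀, hYa⟩ :=
      e' ▸ gammaH_mul_heckeSet (sRep_mem h (K := K) l).1 (gammaH_lift_le hγ)
    have e2 := hY.unique (hX.mul (isIntMat_mapGL τ))
    have hτ0 : τ ∈ Gamma0 M := mul_mem (deltaRep_mem r) (inv_mem (deltaRep_mem r'))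
    refine ⟨Gamma0_mem.1 hτ0, x₀⁻¹ * y₀, mul_mem (inv_mem hx₀) hy₀, ?_⟩
    rw [e2] at hYa
    simp only [Matrix.mul_apply, Fin.sum_univ_two, Int.cast_add, Int.cast_mul, hXa,
      Gamma0_mem.1 hτ0, mul_zero, add_zero] at hYa
    show ((τ 0 0 : ℤ) : ZMod M) = _
    rw [Units.val_mul, ← hYa, Units.inv_mul_cancel_left])
  rw [hτ, mul_inv_cancel, map_one, mul_one] at e'
  obtain rfl : j = l := (isReps_sRep h (K := K)).inj j l ⟨γ, hγ, by rw [e', mul_inv_cancel_right]⟩
  rfl

end CoresTop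

/-! ### The symmetric degeneracy maps -/

section Symm

/-- `(a, b) ↦ res a + conj (⟨q⟩ ^ (e + 1) b)`. -/
def degMap (K : Subgroup (ZMod M)ˣ) (e : ℕ) :
    (Additive (gammaH M K) →+ A) × (Additive (gammaH M K) →+ A) →ₗ[R]
      (Additive (gammaH (M * q) (liftSub q K)) →+ A) :=
  resDeg R q K ∘ₗ LinearMap.fst R _ _ +
    conjDeg h R K ∘ₗ diamond M K R (qUnit h ^ (e + 1)) ∘ₗ LinearMap.snd R _ _

/-- `x ↦ (cor x, ⟨q⟩ ^ e star x)`. -/
def degStar (K : Subgroup (ZMod M)ˣ) (e : ℕ) :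
    (Additive (gammaH (M * q) (liftSub q K)) →+ A) →ₗ[R]
      (Additive (gammaH M K) →+ A) × (Additive (gammaH M K) →+ A) :=
  (corDeg h R K).prod (diamond M K R (qUnit h ^ e) ∘ₗ starDeg h R K)

theorem degMap_apply (e : ℕ) (φ : (Additive (gammaH M K) →+ A) × (Additive (gammaH M K) →+ A)) :
    degMap h R K e φ =
      resDeg R q K φ.1 + conjDeg h R K (diamond M K R (qUnit h ^ (e + 1)) φ.2) := rfl

theorem degStar_apply (e : ℕ) (x : Additive (gammaH (M * q) (liftSub q K)) →+ A) :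
    degStar h R K e x = (corDeg h R K x, diamond M K R (qUnit h ^ e) (starDeg h R K x)) := rfl

/-- The symmetrised operator `⟨q⟩ ^ e T_q`. -/
def symT [Fact q.Prime] (K : Subgroup (ZMod M)ˣ) (e : ℕ) :
    Module.End R (Additive (gammaH M K) →+ A) :=
  diamond M K R (qUnit h ^ e) * hecke M K q R

/-- The composite is `(q + 1, T; T, q + 1)` with `T = ⟨q⟩ ^ e T_q` when `⟨q⟩ ^ (2 e + 1) = 1`. -/
theorem degStar_degMap [Fact q.Prime] {e : ℕ} (he : qUnit h ^ (2 * e + 1) ∈ K)
    (φ : (Additive (gammaH M K) →+ A) × (Additive (gammaH M K) →+ A)) :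
    degStar h R K e (degMap h R K e φ) =
      ((q + 1) • φ.1 + symT h R K e φ.2, symT h R K e φ.1 + (q + 1) • φ.2) := by
  rw [degMap_apply, map_add]
  simp only [degStar_apply, Prod.mk_add_mk, symT, Module.End.mul_apply]
  refine Prod.ext ?_ ?_
  · show corDeg h R K _ + corDeg h R K _ = _
    rw [corDeg_resDeg, corDeg_conjDeg, ← diamond_mul, pow_succ', inv_mul_cancel_left,
      hecke_diamond]
  · show diamond M K R _ _ + diamond M K R _ _ = _
    rw [starDeg_resDeg, starDeg_conjDeg, map_nsmul, ← diamond_mul, ← pow_add,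
      show e + (e + 1) = 2 * e + 1 by omega, diamond_of_mem R he φ.2]

theorem hecke_degMap {n : ℕ} [Fact n.Prime] (hnq : n ≠ q) (e : ℕ)
    (φ : (Additive (gammaH M K) →+ A) × (Additive (gammaH M K) →+ A)) :
    hecke (M * q) (liftSub q K) n R (degMap h R K e φ) =
      degMap h R K e (hecke M K n R φ.1, hecke M K n R φ.2) := by
  rw [degMap_apply, degMap_apply, map_add, hecke_resDeg h R hnq, hecke_conjDeg h R hnq,
    hecke_diamond]

theorem diamond_degMap (u : (ZMod (M * q))ˣ) (e : ℕ)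
    (φ : (Additive (gammaH M K) →+ A) × (Additive (gammaH M K) →+ A)) :
    diamond (M * q) (liftSub q K) R u (degMap h R K e φ) =
      degMap h R K e (diamond M K R (ZMod.unitsMap (dvd_mul_right M q) u) φ.1,
        diamond M K R (ZMod.unitsMap (dvd_mul_right M q) u) φ.2) := by
  rw [degMap_apply, degMap_apply, map_add, diamond_resDeg R u, diamond_conjDeg h R u,
    ← diamond_mul, ← diamond_mul, mul_comm (ZMod.unitsMap _ u)]

theorem degStar_hecke {n : ℕ} [Fact n.Prime] (hnq : n ≠ q) (e : ℕ)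
    (x : Additive (gammaH (M * q) (liftSub q K)) →+ A) :
    degStar h R K e (hecke (M * q) (liftSub q K) n R x) =
      (hecke M K n R (degStar h R K e x).1, hecke M K n R (degStar h R K e x).2) := by
  rw [degStar_apply, degStar_apply, corDeg_hecke h R hnq, starDeg_hecke h R hnq, hecke_diamond]

theorem degStar_diamond (u : (ZMod (M * q))ˣ) (e : ℕ)
    (x : Additive (gammaH (M * q) (liftSub q K)) →+ A) :
    degStar h R K e (diamond (M * q) (liftSub q K) R u x) =
      (diamond M K R (ZMod.unitsMap (dvd_mul_right M q) u) (degStar h R K e x).1,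
        diamond M K R (ZMod.unitsMap (dvd_mul_right M q) u) (degStar h R K e x).2) := by
  rw [degStar_apply, degStar_apply, corDeg_diamond h R u, starDeg_diamond h R u,
    ← diamond_mul, ← diamond_mul, mul_comm (ZMod.unitsMap _ u)]

variable [Fintype ((ZMod M)ˣ ⧸ K)] [Fintype ((ZMod (M * q))ˣ ⧸ liftSub q K)]

/-- The degeneracy map commutes with corestriction to `Γ₀`. -/
theorem coresTop_degMap [NeZero M] (e : ℕ)
    (φ : (Additive (gammaH M K) →+ A) × (Additive (gammaH M K) →+ A)) :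
    coresTop R (liftSub q K) (degMap h R K e φ) =
      degMap h R ⊤ e (coresTop R K φ.1, coresTop R K φ.2) := by
  rw [degMap_apply, degMap_apply, map_add, diamond_top, coresTop_resDeg h,
    coresTop_conjDeg h, coresTop_diamond]
  rfl

/-- The transposed degeneracy map commutes with corestriction to `Γ₀`. -/
theorem degStar_coresTop [NeZero M] (e : ℕ)
    (x : Additive (gammaH (M * q) (liftSub q K)) →+ A) :
    degStar h R ⊤ e (coresTop R (liftSub q K) x) =
      (coresTop R K (degStar h R K e x).1, coresTop R K (degStar h R K e x).2) := by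
  refine Prod.ext (corDeg_coresTop h R x) ?_
  refine ((diamond_top R (qUnit h ^ e) _).trans (starDeg_coresTop h R x)).trans ?_
  exact (coresTop_diamond R _ _).symm

end Symm

end Fermat.Agent.RT.Ihara
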